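import Fermat.Agent.S44.Seams
import Fermat.Prelude.Def_FLTPrelim_Ramification

/-!
# S44, second level: the seam [LOW] from the cells of helper29's design (#3790, #3821) (helper25)

`s44_low_of : (∀ P M …, ∃ Fr : s44_Frame P M, s44_FrameOK Fr W ι-uniformly) → s44_Low_stmt`.

A *frame* `Fr : s44_Frame P M` fixes the objects on which the geometric cells agree
(`N = M p`, `p ∤ M`):
* `Fr.A` a valuation subring of `ℚ̄` above `p`, `Fr.Γ` its inertia group, `Fr.ζ` a primitive `p`-th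
  root of unity (so "`σ z = χ(σ) z`" is spelled "`σ ζ = ζ ^ k → σ • z = k • z`": `Fr.ChiEigen z`);
* `Fr.as Fr.bs : J₀(N) → J₀(M)` the two degeneracy push-forwards;
* `Fr.D1inf z`, `Fr.D10 z` ("`Ψ_w(z) = 0`" at the two components `w_∞`, `w_0`), `Fr.Split z`.

The cells (each ONE field of `s44_FrameOK`):
* `locFrey` **[A]**     a basis `x, v` of `E[p]` with `σ x = χ(σ) x`, `σ v = v + a(σ) x` on inertia and
                        the peu-ramifié datum `β` (a unit at `A` with `σ β = ζ ^ a(σ) β`);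
* `chiRam`              `χ` is nontrivial on inertia;
* `psiEig` **[PSI-EIG]** `χ`-eigen classes have `Ψ_w = 0` at both components;
* `dich` **[DICH]**     in the kernel of both degeneracy maps, `Ψ_∞ = Ψ_0 = 0` ⟹ split;
* `tor` **[TOR]**       split classes are `χ`-eigen;
* `old0` **[OLD0]**     a copy of `E[p]` not killed by both degeneracy maps ⟹ level `M`;
* `big` **[BIG]**       (`[MONO] + [EIS] + [OLD-k]`) the remaining case ⟹ level `M`.
-/

set_option autoImplicit false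

namespace Fermat.Agent.S44

open WeierstrassCurve WeierstrassCurve.Affine WeierstrassCurve.Affine.Point ModularCurve
open scoped WeierstrassCurve.Affine

/-- the objects on which the geometric cells of [LOW] agree -/
structure s44_Frame (P : FreyPackage) (M : ℕ) [NeZero M] [NeZero (M * P.p)] where
  /-- a place of `ℚ̄` above `p` -/
  A : ValuationSubring s44_Qb
  /-- a primitive `p`-th root of unity -/
  ζ : s44_Qb
  /-- `α_* : J₀(M p) → J₀(M)` -/
  as : JZero (M * P.p) →+ JZero M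
  /-- `β_* : J₀(M p) → J₀(M)` -/
  bs : JZero (M * P.p) →+ JZero M
  /-- `Ψ_{w_∞}(z) = 0` -/
  D1inf : JZero (M * P.p) → Prop
  /-- `Ψ_{w_0}(z) = 0` -/
  D10 : JZero (M * P.p) → Prop
  /-- `z` is split at both components -/
  Split : JZero (M * P.p) → Prop

section

variable {P : FreyPackage} {M : ℕ} [NeZero M] [NeZero (M * P.p)] (Fr : s44_Frame P M)

/-- the inertia group of the frame -/
noncomputable def s44_Frame.Γ : Subgroup s44_G := Fr.A.inertiaSubgroupIn ℚ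

/-- `σ z = χ(σ) z` for all `σ` in the inertia group: `σ` acts on `z` as it acts on `ζ`. -/
def s44_Frame.ChiEigen {Z : Type*} [AddMonoid Z] [SMul s44_G Z] (z : Z) : Prop :=
  ∀ σ ∈ Fr.Γ, ∀ k : ℕ, σ Fr.ζ = Fr.ζ ^ k → σ • z = k • z

/-- **[A]**, the output: `x, v` a basis of `E[p]` adapted to inertia at `p`, with cocycle `a` and
peu-ramifié datum `β`. -/
structure s44_IsLocBasis (x v : s44_Tors P) (a : s44_G → ℕ) (β : s44_Qb) : Prop where
  eig : Fr.ChiEigen x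
  ext : ∀ σ ∈ Fr.Γ, σ • v = v + a σ • x
  indep : ∀ m : ℤ, v ≠ m • x
  β_ne : β ≠ 0
  β_mem : β ∈ Fr.A
  β_inv_mem : β⁻¹ ∈ Fr.A
  β_eig : ∀ σ ∈ Fr.Γ, σ β = Fr.ζ ^ a σ * β

/-- **[A]** -/
def s44_LocFrey_stmt : Prop :=
  ∃ (x v : s44_Tors P) (a : s44_G → ℕ) (β : s44_Qb), s44_IsLocBasis Fr x v a β

/-- `χ` is ramified -/
def s44_ChiRam_stmt : Prop :=
  ∃ σ₀ ∈ Fr.Γ, ∃ k₀ : ℕ, σ₀ Fr.ζ = Fr.ζ ^ k₀ ∧ ¬ (k₀ : ℤ) ≡ 1 [ZMOD (P.p : ℤ)]

/-- **[PSI-EIG]** -/
def s44_PsiEig_stmt : Prop :=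
  ∀ z : JZero (M * P.p), P.p • z = 0 → Fr.ChiEigen z → Fr.D1inf z ∧ Fr.D10 z

/-- **[DICH]** -/
def s44_Dich_stmt : Prop :=
  ∀ z : JZero (M * P.p), P.p • z = 0 → Fr.as z = 0 → Fr.bs z = 0 → Fr.D1inf z → Fr.D10 z →
    Fr.Split z

/-- **[TOR]** -/
def s44_Tor_stmt : Prop :=
  ∀ z : JZero (M * P.p), P.p • z = 0 → Fr.Split z → Fr.ChiEigen z

/-- **[OLD0]** -/
def s44_Old0_stmt : Prop :=
  ∀ (W : WeierstrassCurve ℤ) (ι : s44_Tors P →+ JZero (M * P.p)), s44_IsCopy P (M * P.p) W ι →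
    (∃ y : s44_Tors P, Fr.as (ι y) ≠ 0 ∨ Fr.bs (ι y) ≠ 0) → P.ModularRepOfLevel M

/-- **[BIG]** -/
def s44_Big_stmt : Prop :=
  ∀ (W : WeierstrassCurve ℤ) (ι : s44_Tors P →+ JZero (M * P.p)), s44_IsCopy P (M * P.p) W ι →
    ∀ (x v : s44_Tors P) (a : s44_G → ℕ) (β : s44_Qb), s44_IsLocBasis Fr x v a β →
      (∀ y : s44_Tors P, Fr.as (ι y) = 0 ∧ Fr.bs (ι y) = 0) →
      Fr.Split (ι x) → ¬ (Fr.D1inf (ι v) ∧ Fr.D10 (ι v)) → P.ModularRepOfLevel M

/-- all cells for one frame -/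
structure s44_FrameOK : Prop where
  locFrey : s44_LocFrey_stmt Fr
  chiRam : s44_ChiRam_stmt Fr
  psiEig : s44_PsiEig_stmt Fr
  dich : s44_Dich_stmt Fr
  tor : s44_Tor_stmt Fr
  old0 : s44_Old0_stmt Fr
  big : s44_Big_stmt Fr

end

/-- `p • x = 0` on `E[p]` -/
theorem s44_tors_smul (P : FreyPackage) (x : s44_Tors P) : P.p • x = 0 := by
  apply Subtype.ext
  have h := (Submodule.mem_torsionBy_iff _ _).1 x.2
  rw [Submodule.coe_smul_of_tower, Submodule.coe_zero, ← natCast_zsmul]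
  exact h

/-- **[LOW] from the cells.** -/
theorem s44_low_of
    (h : ∀ (P : FreyPackage) (M : ℕ) [NeZero M] [NeZero (M * P.p)], ¬ P.p ∣ M →
      P.IsConductorLevel (M * P.p) →
      GaloisRepIsIrreducible (K := AlgebraicClosure ℚ) ℚ P.freyCurve P.p →
      ∃ Fr : s44_Frame P M, s44_FrameOK Fr) : s44_Low_stmt := by
  intro P M _ _ hpM hcond hirr W ι hι
  obtain ⟨Fr, hFr⟩ := h P M hpM hcond hirr
  obtain ⟨x, v, a, β, hb⟩ := hFr.locFrey
  by_cases hold : ∃ y : s44_Tors P, Fr.as (ι y) ≠ 0 ∨ Fr.bs (ι y) ≠ 0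
  · exact hFr.old0 W ι hι hold
  push Not at hold
  have hp : ∀ y : s44_Tors P, P.p • ι y = 0 := fun y => by
    rw [← map_nsmul, s44_tors_smul, _root_.map_zero]
  -- transport of `ChiEigen` along `ι`
  have heig : ∀ y : s44_Tors P, Fr.ChiEigen y → Fr.ChiEigen (ι y) := by
    intro y hy σ hσ k hk
    rw [← hι.equiv, hy σ hσ k hk, map_nsmul]
  have hsplitX : Fr.Split (ι x) := by
    obtain ⟨h1, h2⟩ := hFr.psiEig (ι x) (hp x) (heig x hb.eig)
    exact hFr.dich (ι x) (hp x) (hold x).1 (hold x).2 h1 h2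
  by_cases hv : Fr.D1inf (ι v) ∧ Fr.D10 (ι v)
  · exfalso
    have hsplitV : Fr.Split (ι v) := hFr.dich (ι v) (hp v) (hold v).1 (hold v).2 hv.1 hv.2
    have hchi := hFr.tor (ι v) (hp v) hsplitV
    obtain ⟨σ₀, hσ₀, k₀, hk₀, hne⟩ := hFr.chiRam
    have e1 : σ₀ • v = k₀ • v := by
      apply hι.inj
      rw [hι.equiv, hchi σ₀ hσ₀ k₀ hk₀, map_nsmul]
    have e2 : k₀ • v = v + a σ₀ • x := by rw [← e1, hb.ext σ₀ hσ₀]
    -- `(k₀ - 1) v = a x`, and `k₀ - 1` is invertible mod `p`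
    have hcop : IsCoprime ((k₀ : ℤ) - 1) (P.p : ℤ) := by
      have hpp : Prime (P.p : ℤ) := Nat.prime_iff_prime_int.1 P.pp
      rw [isCoprime_comm]
      refine (Prime.coprime_iff_not_dvd hpp).2 ?_
      intro hd
      exact hne (Int.modEq_iff_dvd.2 (by
        have : (1 : ℤ) - k₀ = -((k₀ : ℤ) - 1) := by ring
        rw [this]
        exact (dvd_neg).2 hd))
    obtain ⟨u, w, huw⟩ := hcop
    have hpv : (P.p : ℤ) • v = 0 := by
      rw [natCast_zsmul]; exact s44_tors_smul P v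
    have e3 : ((k₀ : ℤ) - 1) • v = (a σ₀ : ℤ) • x := by
      rw [sub_smul, one_smul, natCast_zsmul, natCast_zsmul, e2]
      abel
    have e4 : v = (u * (a σ₀ : ℤ)) • x := by
      calc v = (1 : ℤ) • v := (one_smul _ _).symm
        _ = (u * ((k₀ : ℤ) - 1) + w * (P.p : ℤ)) • v := by rw [huw]
        _ = u • (((k₀ : ℤ) - 1) • v) + w • ((P.p : ℤ) • v) := by
            rw [add_smul, mul_smul, mul_smul]
        _ = (u * (a σ₀ : ℤ)) • x := by rw [e3, hpv, smul_zero, add_zero, mul_smul]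
    exact hb.indep _ e4
  · exact hFr.big W ι hι x v a β hb hold hsplitX hv

end Fermat.Agent.S44
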